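import Mathlib

/-!
# Row LT, tower T7, node T7.L2.1 `SupplyC`, sub-station PROJ, leaf PROJ.7 `DirichletC`: the core
# (helper126, OFF-MAIN, Mathlib only)

For a nonzero ideal `𝔑` of `𝓞 K` and `c ≠ 0` the space `ℝ^{places at ∞}` has a basis made of the
constant vector `c` and of vectors `(log |ε|_w)_w`, `ε` a unit `≡ 1 mod 𝔑`
(Dirichlet's unit theorem: `NumberField.Units.basisUnitLattice`, `Basis.ofZLatticeBasis`).
-/

set_option autoImplicit false
set_option linter.style.haveILetI false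
set_option linter.unusedSectionVars false

noncomputable section

namespace Fermat.Agent.LT.T7.H126

open NumberField NumberField.Units NumberField.Units.dirichletUnitTheorem
open NumberField.InfinitePlace Module

variable (K : Type) [Field K] [NumberField K]

/-- A uniform exponent `m ≥ 1` with `ε ^ m ≡ 1 mod 𝔑` for every unit `ε`. -/
theorem exists_exp_units126 (𝔑 : Ideal (𝓞 K)) (h𝔑 : 𝔑 ≠ ⊥) :
    ∃ m : ℕ, 0 < m ∧ ∀ ε : (𝓞 K)ˣ, (((ε ^ m : (𝓞 K)ˣ) : 𝓞 K) - 1 ∈ 𝔑) := by
  haveI : Finite (𝓞 K ⧸ 𝔑) := Ideal.finiteQuotientOfFreeOfNeBot 𝔑 h𝔑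
  haveI : Fintype ((𝓞 K ⧸ 𝔑)ˣ) := Fintype.ofFinite _
  refine ⟨Fintype.card ((𝓞 K ⧸ 𝔑)ˣ), Fintype.card_pos, fun ε => ?_⟩
  have h := pow_card_eq_one (x := Units.map (Ideal.Quotient.mk 𝔑).toMonoidHom ε)
  have h2 : (Ideal.Quotient.mk 𝔑) (((ε ^ Fintype.card ((𝓞 K ⧸ 𝔑)ˣ) : (𝓞 K)ˣ) : 𝓞 K)) =
      (Ideal.Quotient.mk 𝔑) 1 := by
    have h3 := congrArg (fun x : (𝓞 K ⧸ 𝔑)ˣ => (x : 𝓞 K ⧸ 𝔑)) h
    simp only [Units.val_pow_eq_pow_val, Units.coe_map, Units.val_one] at h3
    rw [Units.val_pow_eq_pow_val, map_pow, map_one]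
    exact h3
  exact Ideal.Quotient.eq.mp h2

/-- The log vector of a power. -/
theorem log_place_pow126 (w : InfinitePlace K) (ε : (𝓞 K)ˣ) (m : ℕ) :
    Real.log (w ((((ε ^ m : (𝓞 K)ˣ)) : 𝓞 K) : K)) = m * Real.log (w (((ε : 𝓞 K)) : K)) := by
  have h : ((((ε ^ m : (𝓞 K)ˣ)) : 𝓞 K) : K) = (((ε : 𝓞 K)) : K) ^ m := by
    push_cast
    rfl
  rw [h, map_pow, Real.log_pow]

/-- **The core of the leaf `DirichletC`.** -/
theorem dirichlet_core126 (𝔑 : Ideal (𝓞 K)) (h𝔑 : 𝔑 ≠ ⊥) (c : ℝ) (hc : c ≠ 0) :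
    ∃ b : Module.Basis (InfinitePlace K) ℝ (InfinitePlace K → ℝ),
      ∀ i : InfinitePlace K, (b i = fun _ => c) ∨
        ∃ ε : (𝓞 K)ˣ, ((ε : 𝓞 K) - 1 ∈ 𝔑) ∧
          b i = fun w => Real.log (w (((ε : 𝓞 K)) : K)) := by
  classical
  obtain ⟨m, hm, hmem⟩ := exists_exp_units126 K 𝔑 h𝔑
  have hm0 : (m : ℝ) ≠ 0 := by exact_mod_cast hm.ne'
  -- the real basis of the log space given by a fundamental system of units
  set B : Basis (Fin (rank K)) ℝ (logSpace K) :=
    (basisUnitLattice K).ofZLatticeBasis ℝ (unitLattice K) with hB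
  have hBapp : ∀ j, B j = logEmbedding K (Additive.ofMul (fundSystem K j)) := by
    intro j
    rw [hB, Basis.ofZLatticeBasis_apply, logEmbedding_fundSystem]
  have hcard : Fintype.card {w : InfinitePlace K // w ≠ w₀} = Fintype.card (Fin (rank K)) := by
    rw [Fintype.card_fin, ← Units.finrank_eq_rank K, finrank_fintype_fun_eq_card]
  let e : {w : InfinitePlace K // w ≠ w₀} ≃ Fin (rank K) := Fintype.equivOfCardEq hcard
  let u : {w : InfinitePlace K // w ≠ w₀} → (𝓞 K)ˣ := fun i => (fundSystem K (e i)) ^ m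
  let v : InfinitePlace K → (InfinitePlace K → ℝ) := fun i =>
    if h : i = w₀ then (fun _ => c)
    else (fun w => Real.log (w ((((u ⟨i, h⟩ : (𝓞 K)ˣ)) : 𝓞 K) : K)))
  have hv0 : v w₀ = fun _ => c := dif_pos rfl
  have hv1 : ∀ i : {w : InfinitePlace K // w ≠ w₀},
      v i.1 = fun w => Real.log (w ((((u i : (𝓞 K)ˣ)) : 𝓞 K) : K)) := by
    intro i
    simp only [v]
    rw [dif_neg i.2]
  have hlin : LinearIndependent ℝ v := by
    rw [Fintype.linearIndependent_iff]
    intro g hg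
    -- the relation, coordinate by coordinate
    have hsum : ∀ w : InfinitePlace K, g w₀ * c +
        ∑ i : {w : InfinitePlace K // w ≠ w₀},
          g i.1 * Real.log (w ((((u i : (𝓞 K)ˣ)) : 𝓞 K) : K)) = 0 := by
      intro w
      have h1 := congrFun hg w
      rw [Finset.sum_apply, Fintype.sum_eq_add_sum_subtype_ne _ w₀] at h1
      simp only [Pi.smul_apply, smul_eq_mul, Pi.zero_apply] at h1
      rw [hv0] at h1
      have h2 : ∑ i : {w : InfinitePlace K // w ≠ w₀}, g i.1 * v i.1 w =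
          ∑ i : {w : InfinitePlace K // w ≠ w₀},
            g i.1 * Real.log (w ((((u i : (𝓞 K)ˣ)) : 𝓞 K) : K)) :=
        Finset.sum_congr rfl fun i _ => by rw [hv1 i]
      rw [h2] at h1
      exact h1
    -- apply the functional `x ↦ ∑ mult w · x w`
    have hg0 : g w₀ = 0 := by
      have h1 : ∑ w : InfinitePlace K, (mult w : ℝ) * (g w₀ * c +
          ∑ i : {w : InfinitePlace K // w ≠ w₀},
            g i.1 * Real.log (w ((((u i : (𝓞 K)ˣ)) : 𝓞 K) : K))) = 0 :=
        Finset.sum_eq_zero fun w _ => by rw [hsum w, mul_zero]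
      simp only [mul_add, Finset.sum_add_distrib, Finset.mul_sum] at h1
      rw [Finset.sum_comm] at h1
      have h2 : ∑ i : {w : InfinitePlace K // w ≠ w₀}, ∑ w : InfinitePlace K,
          (mult w : ℝ) * (g i.1 * Real.log (w ((((u i : (𝓞 K)ˣ)) : 𝓞 K) : K))) = 0 := by
        refine Finset.sum_eq_zero fun i _ => ?_
        have h3 := sum_mult_mul_log (u i)
        have h4 : ∑ w : InfinitePlace K,
            (mult w : ℝ) * (g i.1 * Real.log (w ((((u i : (𝓞 K)ˣ)) : 𝓞 K) : K))) =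
            g i.1 * ∑ w : InfinitePlace K,
              (mult w : ℝ) * Real.log (w ((((u i : (𝓞 K)ˣ)) : 𝓞 K) : K)) := by
          rw [Finset.mul_sum]
          exact Finset.sum_congr rfl fun w _ => by ring
        rw [h4]
        have h5 : ∑ w : InfinitePlace K,
            (mult w : ℝ) * Real.log (w ((((u i : (𝓞 K)ˣ)) : 𝓞 K) : K)) = 0 := h3
        rw [h5, mul_zero]
      rw [h2, add_zero, ← Finset.sum_mul] at h1
      have h6 : (∑ w : InfinitePlace K, (mult w : ℝ)) ≠ 0 := by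
        have h7 : (∑ w : InfinitePlace K, (mult w : ℝ)) = (Module.finrank ℚ K : ℝ) := by
          have := InfinitePlace.sum_mult_eq (K := K)
          exact_mod_cast this
        rw [h7]
        exact_mod_cast (Module.finrank_pos (R := ℚ) (M := K)).ne'
      rcases mul_eq_zero.1 h1 with h8 | h8
      · exact absurd h8 h6
      · rcases mul_eq_zero.1 h8 with h9 | h9
        · exact h9
        · exact absurd h9 hc
    -- the relation in the log space
    have hB0 : ∑ j : Fin (rank K), (g (e.symm j).1 * m) • B j = 0 := by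
      funext w'
      rw [Finset.sum_apply]
      simp only [Pi.smul_apply, smul_eq_mul, Pi.zero_apply]
      have h1 := hsum w'.1
      rw [hg0, zero_mul, zero_add] at h1
      have h2 : ∑ j : Fin (rank K), g (e.symm j).1 * m * B j w' =
          (mult w'.1 : ℝ) * ∑ i : {w : InfinitePlace K // w ≠ w₀},
            g i.1 * Real.log (w'.1 ((((u i : (𝓞 K)ˣ)) : 𝓞 K) : K)) := by
        rw [Finset.mul_sum, ← Equiv.sum_comp e]
        refine Finset.sum_congr rfl fun i _ => ?_
        rw [Equiv.symm_apply_apply, hBapp, logEmbedding_component]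
        show _ = (mult w'.1 : ℝ) * (g i.1 *
          Real.log (w'.1 (((((fundSystem K (e i)) ^ m : (𝓞 K)ˣ)) : 𝓞 K) : K)))
        rw [log_place_pow126]
        ring
      rw [h2, h1, mul_zero]
    have hB1 := Fintype.linearIndependent_iff.1 B.linearIndependent _ hB0
    intro i
    by_cases hi : i = w₀
    · rw [hi]
      exact hg0
    · have h1 := hB1 (e ⟨i, hi⟩)
      rw [Equiv.symm_apply_apply] at h1
      rcases mul_eq_zero.1 h1 with h2 | h2
      · exact h2
      · exact absurd h2 hm0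
  have hcardV : Fintype.card (InfinitePlace K) = finrank ℝ (InfinitePlace K → ℝ) :=
    (finrank_fintype_fun_eq_card ℝ).symm
  refine ⟨basisOfLinearIndependentOfCardEqFinrank hlin hcardV, fun i => ?_⟩
  rw [coe_basisOfLinearIndependentOfCardEqFinrank]
  by_cases hi : i = w₀
  · left
    rw [hi]
    exact hv0
  · right
    exact ⟨u ⟨i, hi⟩, hmem _, hv1 ⟨i, hi⟩⟩

end Fermat.Agent.LT.T7.H126

end
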