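import Fermat.Agent.LT.T7.H193.ProjSpec
import Fermat.Agent.LT.T7.H126.DirichletCore

/-!
# Row LT, tower T7, node T7.L2.1 `SupplyC`, sub-station PROJ, leaf PROJ.7 = T7.L2.1.P09
# `DirichletC` (helper126, OFF-MAIN)

`dirichletC126 K : H193.DirichletC K`, VERBATIM vs `T7/H193/ProjSpec.lean` (sha256 977a85e3,
helper193@812840e55), UNCONDITIONAL.  The proof is `dirichlet_core126` (Mathlib only).
-/

set_option autoImplicit false

namespace Fermat.Agent.LT.T7.H126

open NumberField

/-- **LEAF PROJ.7 = DIRICHLET.** -/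
theorem dirichletC126 (K : Type) [Field K] [NumberField K] :
    Fermat.Agent.LT.T7.H193.DirichletC K :=
  fun 𝔑 h𝔑 c hc => dirichlet_core126 K 𝔑 h𝔑 c hc

end Fermat.Agent.LT.T7.H126
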